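import Mathlib

set_option autoImplicit false

/-!
# CFT / LOC-HQ : the Herbrand quotient (index calculus version)

For an abelian group `A` and endomorphisms `f g` with `f ∘ g = 0 = g ∘ f` we put
`hq f g = [ker f : im g]` (a natural number, `0` meaning infinite).

* `hq_mul_of_exact` : for a short exact sequence `0 → B → A → C → 0` compatible with `f, g`:
  `hq fA gA * hq gB fB * hq gC fC = hq gA fA * hq fB gB * hq fC gC` (unconditionally, in `ℕ`).
* `hq_ne_zero_mid`, `hq_ne_zero_left`, `hq_ne_zero_right` : two-out-of-three finiteness.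
* `hq_eq_of_finite` : `hq f g = hq g f ≠ 0` for finite `A`.
-/

namespace Fermat.Agent.CFT.HQ

open AddSubgroup

variable {A : Type*} [AddCommGroup A]

/-- `[ker f : im g]`. -/
noncomputable def hq (f g : A →+ A) : ℕ := g.range.relIndex f.ker

section internal

variable (f g : A →+ A) (B : AddSubgroup A)

/-- `[B ∩ im g : g B]` -/
noncomputable def al : ℕ := (B.map g).relIndex (B ⊓ g.range)
/-- `[B ∩ ker f : B ∩ im g]` -/
noncomputable def be : ℕ := (B ⊓ g.range).relIndex (B ⊓ f.ker)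
/-- `[ker f : B ∩ ker f + im g]` -/
noncomputable def ga : ℕ := ((B ⊓ f.ker) ⊔ g.range).relIndex f.ker

variable {f g B}

lemma range_le_ker (hfg : ∀ x, f (g x) = 0) : g.range ≤ f.ker := by
  rintro _ ⟨x, rfl⟩
  exact hfg x

lemma al_mul_be (hfg : ∀ x, f (g x) = 0) (hgB : ∀ b ∈ B, g b ∈ B) :
    al g B * be f g B = (B.map g).relIndex (B ⊓ f.ker) := by
  refine relIndex_mul_relIndex _ _ _ ?_ ?_
  · rintro _ ⟨b, hb, rfl⟩
    exact ⟨hgB b hb, ⟨b, rfl⟩⟩
  · exact inf_le_inf_left _ (range_le_ker hfg)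

lemma be_mul_ga (hfg : ∀ x, f (g x) = 0) : be f g B * ga f g B = hq f g := by
  have h1 : g.range.relIndex ((B ⊓ f.ker) ⊔ g.range) = be f g B := by
    rw [relIndex_sup_right, ← inf_relIndex_right, be]
    congr 1
    rw [inf_comm, inf_assoc, inf_eq_right.2 (range_le_ker hfg)]
  rw [← h1]
  exact relIndex_mul_relIndex _ _ _ le_sup_right (sup_le inf_le_right (range_le_ker hfg))

lemma ga_mul_al (hfg : ∀ x, f (g x) = 0) (hfB : ∀ b ∈ B, f b ∈ B) :
    ga f g B * al f B = (g.range ⊔ B).relIndex (B.comap f) := by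
  have hker : f.ker ≤ B.comap f := fun x hx => by
    rw [mem_comap, (AddMonoidHom.mem_ker).1 hx]; exact B.zero_mem
  have hB : B ≤ B.comap f := fun b hb => hfB b hb
  have h1 : (g.range ⊔ B).relIndex (f.ker ⊔ B) = ga f g B := by
    have e : f.ker ⊔ B = f.ker ⊔ (g.range ⊔ B) := by
      rw [← sup_assoc, sup_eq_left.2 (range_le_ker hfg)]
    rw [e, relIndex_sup_right, ← inf_relIndex_right, ga]
    congr 1
    apply le_antisymm
    · rintro x ⟨hx1, hx2⟩
      obtain ⟨r, hr, b, hb, rfl⟩ := AddSubgroup.mem_sup.1 hx1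
      refine AddSubgroup.mem_sup.2 ⟨b, ⟨hb, ?_⟩, r, hr, add_comm _ _⟩
      have hr' : r ∈ f.ker := range_le_ker hfg hr
      have := f.ker.sub_mem hx2 hr'
      simpa using this
    · refine sup_le ?_ ?_
      · exact le_inf (inf_le_left.trans le_sup_right) inf_le_right
      · exact le_inf le_sup_left (range_le_ker hfg)
  have h2 : (f.ker ⊔ B).relIndex (B.comap f) = al f B := by
    have := relIndex_map_map f B (B.comap f)
    rw [map_comap_eq, sup_eq_left.2 hker, inf_comm] at this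
    rw [al, this, sup_comm]
  rw [← h1, ← h2]
  exact relIndex_mul_relIndex _ _ _ (sup_le_sup_right (range_le_ker hfg) _) (sup_le hker hB)

end internal

/-! ### transfer to sub and quotient -/

section transfer

variable {B C : Type*} [AddCommGroup B] [AddCommGroup C]

/-- `hq` of a sub-object. -/
lemma hq_sub (ι : B →+ A) (hι : Function.Injective ι) {f g : A →+ A} {fB gB : B →+ B}
    (hf : ∀ b, f (ι b) = ι (fB b)) (hg : ∀ b, g (ι b) = ι (gB b)) :
    hq fB gB = (ι.range.map g).relIndex (ι.range ⊓ f.ker) := by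
  rw [hq, ← relIndex_map_map_of_injective _ _ hι]
  congr 1
  · ext x
    simp only [AddSubgroup.mem_map, AddMonoidHom.mem_range]
    constructor
    · rintro ⟨_, ⟨b, rfl⟩, rfl⟩
      exact ⟨ι b, ⟨b, rfl⟩, hg b⟩
    · rintro ⟨_, ⟨b, rfl⟩, rfl⟩
      exact ⟨gB b, ⟨b, rfl⟩, (hg b).symm⟩
  · ext x
    simp only [AddSubgroup.mem_map, AddSubgroup.mem_inf, AddMonoidHom.mem_range,
      AddMonoidHom.mem_ker]
    constructor
    · rintro ⟨b, hb, rfl⟩
      exact ⟨⟨b, rfl⟩, by rw [hf, hb, map_zero]⟩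
    · rintro ⟨⟨b, rfl⟩, hb⟩
      refine ⟨b, ?_, rfl⟩
      rw [hf] at hb
      exact hι (by rw [hb, map_zero])

/-- `hq` of a quotient object. -/
lemma hq_quot (π : A →+ C) (hπ : Function.Surjective π) {f g : A →+ A} {fC gC : C →+ C}
    (hf : ∀ a, fC (π a) = π (f a)) (hg : ∀ a, gC (π a) = π (g a)) :
    hq fC gC = (g.range ⊔ π.ker).relIndex (π.ker.comap f) := by
  have h1 : gC.range = g.range.map π := by
    ext x
    simp only [AddSubgroup.mem_map, AddMonoidHom.mem_range]
    constructor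
    · rintro ⟨c, rfl⟩
      obtain ⟨a, rfl⟩ := hπ c
      exact ⟨g a, ⟨a, rfl⟩, (hg a).symm⟩
    · rintro ⟨_, ⟨a, rfl⟩, rfl⟩
      exact ⟨π a, hg a⟩
  have h2 : fC.ker = (π.ker.comap f).map π := by
    ext x
    simp only [AddSubgroup.mem_map, AddSubgroup.mem_comap, AddMonoidHom.mem_ker]
    constructor
    · intro hx
      obtain ⟨a, rfl⟩ := hπ x
      exact ⟨a, by rw [← hf]; exact hx, rfl⟩
    · rintro ⟨a, ha, rfl⟩
      rw [hf]
      exact ha
  have hker : π.ker ≤ π.ker.comap f := fun a ha => by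
    rw [mem_comap, AddMonoidHom.mem_ker, ← hf, (AddMonoidHom.mem_ker).1 ha, map_zero]
  rw [hq, h1, h2, relIndex_map_map, sup_eq_left.2 hker]

end transfer

/-! ### the main theorem -/

section exact

variable {B C : Type*} [AddCommGroup B] [AddCommGroup C]

/-- Data of a short exact sequence `0 → B → A → C → 0` of abelian groups with compatible pairs of
endomorphisms `(f, g)` such that `f g = g f = 0` on `A`. -/
structure IsSES (ι : B →+ A) (π : A →+ C) (fA gA : A →+ A) (fB gB : B →+ B) (fC gC : C →+ C) :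
    Prop where
  inj : Function.Injective ι
  surj : Function.Surjective π
  exact : ι.range = π.ker
  fg : ∀ x, fA (gA x) = 0
  gf : ∀ x, gA (fA x) = 0
  fι : ∀ b, fA (ι b) = ι (fB b)
  gι : ∀ b, gA (ι b) = ι (gB b)
  fπ : ∀ a, fC (π a) = π (fA a)
  gπ : ∀ a, gC (π a) = π (gA a)

variable {ι : B →+ A} {π : A →+ C} {fA gA : A →+ A} {fB gB : B →+ B} {fC gC : C →+ C}

namespace IsSES

lemma symm (h : IsSES ι π fA gA fB gB fC gC) : IsSES ι π gA fA gB fB gC fC :=
  ⟨h.inj, h.surj, h.exact, h.gf, h.fg, h.gι, h.fι, h.gπ, h.fπ⟩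

lemma f_mem (h : IsSES ι π fA gA fB gB fC gC) : ∀ b ∈ ι.range, fA b ∈ ι.range := by
  rintro _ ⟨b, rfl⟩
  exact ⟨fB b, (h.fι b).symm⟩

lemma g_mem (h : IsSES ι π fA gA fB gB fC gC) : ∀ b ∈ ι.range, gA b ∈ ι.range := h.symm.f_mem

lemma hqA (h : IsSES ι π fA gA fB gB fC gC) :
    hq fA gA = be fA gA ι.range * ga fA gA ι.range := (be_mul_ga h.fg).symm

lemma hqB (h : IsSES ι π fA gA fB gB fC gC) :
    hq fB gB = al gA ι.range * be fA gA ι.range := by
  rw [hq_sub ι h.inj h.fι h.gι, al_mul_be h.fg h.g_mem]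

lemma hqC (h : IsSES ι π fA gA fB gB fC gC) :
    hq fC gC = ga fA gA ι.range * al fA ι.range := by
  rw [hq_quot π h.surj h.fπ h.gπ, ga_mul_al h.fg h.f_mem, h.exact]

/-- **Multiplicativity of the Herbrand quotient**, unconditional form. -/
theorem hq_mul (h : IsSES ι π fA gA fB gB fC gC) :
    hq fA gA * hq gB fB * hq gC fC = hq gA fA * hq fB gB * hq fC gC := by
  rw [h.hqA, h.hqB, h.hqC, h.symm.hqA, h.symm.hqB, h.symm.hqC]
  ring

/-- finiteness for `B` and `C` implies finiteness for `A`. -/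
theorem hq_ne_zero_mid (h : IsSES ι π fA gA fB gB fC gC) (hB : hq fB gB ≠ 0) (hC : hq fC gC ≠ 0) :
    hq fA gA ≠ 0 := by
  rw [h.hqB] at hB
  rw [h.hqC] at hC
  rw [h.hqA]
  exact mul_ne_zero (right_ne_zero_of_mul hB) (left_ne_zero_of_mul hC)

/-- finiteness for `A` (both) and `C` implies finiteness for `B`. -/
theorem hq_ne_zero_left (h : IsSES ι π fA gA fB gB fC gC) (hA : hq fA gA ≠ 0)
    (hC : hq gC fC ≠ 0) : hq fB gB ≠ 0 := by
  rw [h.hqA] at hA
  rw [h.symm.hqC] at hC
  rw [h.hqB]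
  exact mul_ne_zero (right_ne_zero_of_mul hC) (left_ne_zero_of_mul hA)

/-- finiteness for `A` and `B` implies finiteness for `C`. -/
theorem hq_ne_zero_right (h : IsSES ι π fA gA fB gB fC gC) (hA : hq fA gA ≠ 0)
    (hB : hq gB fB ≠ 0) : hq fC gC ≠ 0 := by
  rw [h.hqA] at hA
  rw [h.symm.hqB] at hB
  rw [h.hqC]
  exact mul_ne_zero (right_ne_zero_of_mul hA) (left_ne_zero_of_mul hB)

end IsSES

end exact

/-! ### finite groups -/

section finite

lemma card_range_mul_hq {f g : A →+ A} (hfg : ∀ x, f (g x) = 0) :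
    Nat.card g.range * hq f g = Nat.card f.ker := by
  have := relIndex_mul_relIndex (⊥ : AddSubgroup A) g.range f.ker bot_le (range_le_ker hfg)
  rwa [relIndex_bot_left, relIndex_bot_left] at this

lemma card_ker_mul_card_range (f : A →+ A) : Nat.card f.ker * Nat.card f.range = Nat.card A := by
  rw [← index_ker, card_mul_index]

theorem hq_ne_zero_of_finite [Finite A] (f g : A →+ A) : hq f g ≠ 0 := by
  unfold hq relIndex
  exact AddSubgroup.FiniteIndex.index_ne_zero

/-- The Herbrand quotient of a finite group is `1`. -/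
theorem hq_eq_of_finite [Finite A] {f g : A →+ A} (hfg : ∀ x, f (g x) = 0)
    (hgf : ∀ x, g (f x) = 0) : hq f g = hq g f := by
  have h1 := card_range_mul_hq hfg
  have h2 := card_range_mul_hq hgf
  have h3 := card_ker_mul_card_range f
  have h4 := card_ker_mul_card_range g
  have hpos : 0 < Nat.card g.range * Nat.card f.range :=
    Nat.mul_pos Nat.card_pos Nat.card_pos
  apply Nat.eq_of_mul_eq_mul_left hpos
  calc Nat.card g.range * Nat.card f.range * hq f g
      = (Nat.card g.range * hq f g) * Nat.card f.range := by ring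
    _ = Nat.card A := by rw [h1, h3]
    _ = (Nat.card f.range * hq g f) * Nat.card g.range := by rw [h2, h4]
    _ = Nat.card g.range * Nat.card f.range * hq g f := by ring

end finite

end Fermat.Agent.CFT.HQ
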