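import Fermat.Agent.CFT.Herbrand

set_option autoImplicit false

/-!
# CFT / LOC-HQ : Herbrand quotient of a cyclic group

`σ : A →+ A` with `σ^[n] = id`.  `Dm σ = σ - 1`, `Nm n σ = ∑_{i<n} σ^i`,
`h0 n σ = [A^σ : Nm A]`, `h1 n σ = [ker Nm : (σ-1) A]`.
-/

namespace Fermat.Agent.CFT.HQ

open AddSubgroup Finset

variable {A : Type*} [AddCommGroup A]

/-- `σ - 1`. -/
def Dm (σ : A →+ A) : A →+ A := σ - AddMonoidHom.id A

/-- the norm `∑_{i<n} σ^i`. -/
def Nm (n : ℕ) (σ : A →+ A) : A →+ A where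
  toFun x := ∑ i ∈ range n, σ^[i] x
  map_zero' := by simp [iterate_map_zero]
  map_add' x y := by simp [iterate_map_add, Finset.sum_add_distrib]

@[simp] lemma Dm_apply (σ : A →+ A) (x : A) : Dm σ x = σ x - x := rfl

lemma Nm_apply (n : ℕ) (σ : A →+ A) (x : A) : Nm n σ x = ∑ i ∈ range n, σ^[i] x := rfl

lemma Dm_Nm {n : ℕ} {σ : A →+ A} (hσ : ∀ x, σ^[n] x = x) (x : A) : Dm σ (Nm n σ x) = 0 := by
  rw [Dm_apply, Nm_apply, map_sum, ← Finset.sum_sub_distrib]
  have : ∀ i ∈ range n, σ (σ^[i] x) - σ^[i] x = σ^[i + 1] x - σ^[i] x := fun i _ => by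
    rw [Function.iterate_succ_apply']
  rw [Finset.sum_congr rfl this, Finset.sum_range_sub (fun i => σ^[i] x), hσ]
  simp

lemma Nm_Dm {n : ℕ} {σ : A →+ A} (hσ : ∀ x, σ^[n] x = x) (x : A) : Nm n σ (Dm σ x) = 0 := by
  rw [Dm_apply, map_sub, Nm_apply, Nm_apply, ← Finset.sum_sub_distrib]
  have : ∀ i ∈ range n, σ^[i] (σ x) - σ^[i] x = σ^[i + 1] x - σ^[i] x := fun i _ => by
    rw [Function.iterate_succ_apply]
  rw [Finset.sum_congr rfl this, Finset.sum_range_sub (fun i => σ^[i] x), hσ]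
  simp

/-- `|Ĥ⁰| = [A^σ : Nm A]`. -/
noncomputable def h0 (n : ℕ) (σ : A →+ A) : ℕ := hq (Dm σ) (Nm n σ)

/-- `|H¹| = [ker Nm : (σ-1) A]`. -/
noncomputable def h1 (n : ℕ) (σ : A →+ A) : ℕ := hq (Nm n σ) (Dm σ)

lemma h0_def (n : ℕ) (σ : A →+ A) : h0 n σ = (Nm n σ).range.relIndex (Dm σ).ker := rfl
lemma h1_def (n : ℕ) (σ : A →+ A) : h1 n σ = (Dm σ).range.relIndex (Nm n σ).ker := rfl

lemma mem_ker_Dm {σ : A →+ A} {x : A} : x ∈ (Dm σ).ker ↔ σ x = x := by
  rw [AddMonoidHom.mem_ker, Dm_apply, sub_eq_zero]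

section maps

variable {B : Type*} [AddCommGroup B]

lemma pow_comm_of_comm {φ : A →+ B} {σ : A →+ A} {τ : B →+ B}
    (h : ∀ a, τ (φ a) = φ (σ a)) (i : ℕ) (a : A) : τ^[i] (φ a) = φ (σ^[i] a) := by
  induction i generalizing a with
  | zero => simp
  | succ k ih =>
    rw [Function.iterate_succ_apply, Function.iterate_succ_apply, h, ih]

lemma Dm_comm {φ : A →+ B} {σ : A →+ A} {τ : B →+ B}
    (h : ∀ a, τ (φ a) = φ (σ a)) (a : A) : Dm τ (φ a) = φ (Dm σ a) := by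
  simp [h]

lemma Nm_comm {φ : A →+ B} {σ : A →+ A} {τ : B →+ B}
    (h : ∀ a, τ (φ a) = φ (σ a)) (n : ℕ) (a : A) : Nm n τ (φ a) = φ (Nm n σ a) := by
  rw [Nm_apply, Nm_apply, map_sum]
  exact Finset.sum_congr rfl fun i _ => pow_comm_of_comm h i a

end maps

/-! ### short exact sequences -/

section ses

variable {B C : Type*} [AddCommGroup B] [AddCommGroup C]

/-- A short exact sequence of `ℤ[σ]`-modules. -/
structure IsCycSES (ι : B →+ A) (π : A →+ C) (σA : A →+ A) (σB : B →+ B)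
    (σC : C →+ C) : Prop where
  inj : Function.Injective ι
  surj : Function.Surjective π
  exact : ι.range = π.ker
  σι : ∀ b, σA (ι b) = ι (σB b)
  σπ : ∀ a, σC (π a) = π (σA a)

variable {ι : B →+ A} {π : A →+ C} {σA : A →+ A} {σB : B →+ B}
  {σC : C →+ C}

lemma IsCycSES.isSES (h : IsCycSES ι π σA σB σC) {n : ℕ} (hσ : ∀ x, σA^[n] x = x) :
    IsSES ι π (Dm σA) (Nm n σA) (Dm σB) (Nm n σB) (Dm σC) (Nm n σC) where
  inj := h.inj
  surj := h.surj
  exact := h.exact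
  fg := Dm_Nm hσ
  gf := Nm_Dm hσ
  fι := Dm_comm h.σι
  gι := Nm_comm h.σι n
  fπ := Dm_comm h.σπ
  gπ := Nm_comm h.σπ n

/-- **Multiplicativity of the Herbrand quotient** `h(A) = h(B) h(C)`, cross-multiplied. -/
theorem IsCycSES.h_mul (h : IsCycSES ι π σA σB σC) {n : ℕ} (hσ : ∀ x, σA^[n] x = x) :
    h0 n σA * h1 n σB * h1 n σC = h1 n σA * h0 n σB * h0 n σC :=
  (h.isSES hσ).hq_mul

theorem IsCycSES.h0_ne_zero_mid (h : IsCycSES ι π σA σB σC) {n : ℕ} (hσ : ∀ x, σA^[n] x = x)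
    (hB : h0 n σB ≠ 0) (hC : h0 n σC ≠ 0) : h0 n σA ≠ 0 :=
  (h.isSES hσ).hq_ne_zero_mid hB hC

theorem IsCycSES.h1_ne_zero_mid (h : IsCycSES ι π σA σB σC) {n : ℕ} (hσ : ∀ x, σA^[n] x = x)
    (hB : h1 n σB ≠ 0) (hC : h1 n σC ≠ 0) : h1 n σA ≠ 0 :=
  (h.isSES hσ).symm.hq_ne_zero_mid hB hC

theorem IsCycSES.h0_ne_zero_left (h : IsCycSES ι π σA σB σC) {n : ℕ} (hσ : ∀ x, σA^[n] x = x)
    (hA : h0 n σA ≠ 0) (hC : h1 n σC ≠ 0) : h0 n σB ≠ 0 :=
  (h.isSES hσ).hq_ne_zero_left hA hC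

theorem IsCycSES.h1_ne_zero_left (h : IsCycSES ι π σA σB σC) {n : ℕ} (hσ : ∀ x, σA^[n] x = x)
    (hA : h1 n σA ≠ 0) (hC : h0 n σC ≠ 0) : h1 n σB ≠ 0 :=
  (h.isSES hσ).symm.hq_ne_zero_left hA hC

theorem IsCycSES.h0_ne_zero_right (h : IsCycSES ι π σA σB σC) {n : ℕ} (hσ : ∀ x, σA^[n] x = x)
    (hA : h0 n σA ≠ 0) (hB : h1 n σB ≠ 0) : h0 n σC ≠ 0 :=
  (h.isSES hσ).hq_ne_zero_right hA hB

theorem IsCycSES.h1_ne_zero_right (h : IsCycSES ι π σA σB σC) {n : ℕ} (hσ : ∀ x, σA^[n] x = x)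
    (hA : h1 n σA ≠ 0) (hB : h0 n σB ≠ 0) : h1 n σC ≠ 0 :=
  (h.isSES hσ).symm.hq_ne_zero_right hA hB

end ses

/-! ### finite modules, isomorphisms -/

theorem h0_eq_h1_of_finite [Finite A] {n : ℕ} {σ : A →+ A} (hσ : ∀ x, σ^[n] x = x) :
    h0 n σ = h1 n σ :=
  hq_eq_of_finite (Dm_Nm hσ) (Nm_Dm hσ)

theorem h0_ne_zero_of_finite [Finite A] (n : ℕ) (σ : A →+ A) : h0 n σ ≠ 0 :=
  hq_ne_zero_of_finite _ _

theorem h1_ne_zero_of_finite [Finite A] (n : ℕ) (σ : A →+ A) : h1 n σ ≠ 0 :=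
  hq_ne_zero_of_finite _ _

section iso

variable {B : Type*} [AddCommGroup B]

lemma hq_congr (e : A ≃+ B) {f g : A →+ A} {f' g' : B →+ B} (hf : ∀ a, f' (e a) = e (f a))
    (hg : ∀ a, g' (e a) = e (g a)) : hq f' g' = hq f g := by
  rw [hq_sub (e.symm : B →+ A) e.symm.injective (f := f) (g := g) (fB := f') (gB := g')
    (fun b => by
      apply e.injective
      have := hf (e.symm b)
      simpa using this.symm)
    (fun b => by
      apply e.injective
      have := hg (e.symm b)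
      simpa using this.symm)]
  have htop : (e.symm : B →+ A).range = ⊤ :=
    AddMonoidHom.range_eq_top.2 e.symm.surjective
  rw [htop, top_inf_eq, hq, ← AddMonoidHom.range_eq_map]

theorem h0_congr (e : A ≃+ B) {σ : A →+ A} {τ : B →+ B}
    (h : ∀ a, τ (e a) = e (σ a)) (n : ℕ) : h0 n τ = h0 n σ :=
  hq_congr e (Dm_comm (φ := (e : A →+ B)) h) (Nm_comm (φ := (e : A →+ B)) h n)

theorem h1_congr (e : A ≃+ B) {σ : A →+ A} {τ : B →+ B}
    (h : ∀ a, τ (e a) = e (σ a)) (n : ℕ) : h1 n τ = h1 n σ :=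
  hq_congr e (Nm_comm (φ := (e : A →+ B)) h n) (Dm_comm (φ := (e : A →+ B)) h)

end iso

/-! ### finite kernel / cokernel -/

section finiteIndex

variable {B C : Type*} [AddCommGroup B] [AddCommGroup C]
  {ι : B →+ A} {π : A →+ C} {σA : A →+ A} {σB : B →+ B} {σC : C →+ C}

lemma IsCycSES.iterate_right (h : IsCycSES ι π σA σB σC) {n : ℕ} (hσ : ∀ x, σA^[n] x = x) :
    ∀ x, σC^[n] x = x := by
  intro c
  obtain ⟨a, rfl⟩ := h.surj c
  rw [pow_comm_of_comm h.σπ, hσ]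

lemma IsCycSES.iterate_left (h : IsCycSES ι π σA σB σC) {n : ℕ} (hσ : ∀ x, σA^[n] x = x) :
    ∀ x, σB^[n] x = x := by
  intro b
  apply h.inj
  rw [← pow_comm_of_comm h.σι, hσ]

/-- `h(A) = h(B)` if `A / B` is finite. -/
theorem IsCycSES.h_mul_of_finite_right [Finite C] (h : IsCycSES ι π σA σB σC) {n : ℕ}
    (hσ : ∀ x, σA^[n] x = x) : h0 n σA * h1 n σB = h1 n σA * h0 n σB := by
  have h1' := h.h_mul hσ
  rw [h0_eq_h1_of_finite (h.iterate_right hσ)] at h1'
  exact Nat.eq_of_mul_eq_mul_right (Nat.pos_of_ne_zero (h1_ne_zero_of_finite n σC)) h1'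

/-- `h(A) = h(C)` if `B` is finite. -/
theorem IsCycSES.h_mul_of_finite_left [Finite B] (h : IsCycSES ι π σA σB σC) {n : ℕ}
    (hσ : ∀ x, σA^[n] x = x) : h0 n σA * h1 n σC = h1 n σA * h0 n σC := by
  have h1' := h.h_mul hσ
  rw [h0_eq_h1_of_finite (h.iterate_left hσ)] at h1'
  have hpos := Nat.pos_of_ne_zero (h1_ne_zero_of_finite n σB)
  apply Nat.eq_of_mul_eq_mul_right hpos
  calc h0 n σA * h1 n σC * h1 n σB = h0 n σA * h1 n σB * h1 n σC := by ring
    _ = h1 n σA * h1 n σB * h0 n σC := h1'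
    _ = h1 n σA * h0 n σC * h1 n σB := by ring

end finiteIndex

/-! ### trivial action on `ℤ` -/

section int

lemma Nm_id_apply (n : ℕ) (x : A) : Nm n (AddMonoidHom.id A) x = n • x := by
  rw [Nm_apply]
  have this' : ∀ i : ℕ, (AddMonoidHom.id A)^[i] x = x := fun i => by
    induction i with
    | zero => rfl
    | succ k ih => rw [Function.iterate_succ_apply, AddMonoidHom.id_apply]; exact ih
  rw [Finset.sum_congr rfl (fun i _ => this' i)]
  simp

lemma Dm_id : Dm (AddMonoidHom.id A) = 0 := by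
  ext x; simp

theorem h0_int (n : ℕ) : h0 n (AddMonoidHom.id ℤ) = n := by
  rw [h0_def, Dm_id, AddMonoidHom.ker_zero, relIndex_top_right]
  have : (Nm n (AddMonoidHom.id ℤ)).range = AddSubgroup.zmultiples (n : ℤ) := by
    ext x
    simp only [AddMonoidHom.mem_range, Nm_id_apply, AddSubgroup.mem_zmultiples_iff]
    constructor
    · rintro ⟨y, rfl⟩
      exact ⟨y, by simp [mul_comm]⟩
    · rintro ⟨y, rfl⟩
      exact ⟨y, by simp [mul_comm]⟩
  rw [this, Int.index_zmultiples]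
  simp

theorem h1_int {n : ℕ} (hn : n ≠ 0) : h1 n (AddMonoidHom.id ℤ) = 1 := by
  rw [h1_def, relIndex_eq_one]
  intro x hx
  rw [AddMonoidHom.mem_ker, Nm_id_apply] at hx
  have : x = 0 := by
    rcases smul_eq_zero.1 hx with h | h
    · exact absurd h hn
    · exact h
  rw [this]
  exact zero_mem _

end int

/-! ### induced modules -/

section induced

variable (n : ℕ) (X : Type*) [AddCommGroup X]

/-- the shift on `ZMod n → X`. -/
def shift : (ZMod n → X) →+ (ZMod n → X) where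
  toFun φ i := φ (i + 1)
  map_zero' := rfl
  map_add' _ _ := rfl

variable {n X}

@[simp] lemma shift_apply (φ : ZMod n → X) (i : ZMod n) : shift n X φ i = φ (i + 1) := rfl

lemma shift_iterate (k : ℕ) (φ : ZMod n → X) (i : ZMod n) :
    (shift n X)^[k] φ i = φ (i + k) := by
  induction k generalizing φ with
  | zero => simp
  | succ k ih =>
    rw [Function.iterate_succ_apply, ih, shift_apply]
    congr 1
    push_cast
    ring

lemma shift_iterate_self (φ : ZMod n → X) : (shift n X)^[n] φ = φ := by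
  ext i
  rw [shift_iterate]
  simp

lemma sum_range_natCast [NeZero n] (φ : ZMod n → X) :
    ∑ k ∈ range n, φ (k : ZMod n) = ∑ j : ZMod n, φ j := by
  symm
  refine Finset.sum_bij (fun j _ => j.val) (fun j _ => Finset.mem_range.2 (ZMod.val_lt j))
    (fun a _ b _ h => ZMod.val_injective n h) (fun k hk => ?_) (fun j _ => ?_)
  · exact ⟨(k : ZMod n), Finset.mem_univ _, ZMod.val_natCast_of_lt (Finset.mem_range.1 hk)⟩
  · rw [ZMod.natCast_zmod_val]

lemma Nm_shift_apply [NeZero n] (φ : ZMod n → X) (i : ZMod n) :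
    Nm n (shift n X) φ i = ∑ j : ZMod n, φ j := by
  rw [Nm_apply, Finset.sum_apply]
  simp only [shift_iterate]
  rw [sum_range_natCast (fun k => φ (i + k))]
  exact Equiv.sum_comp (Equiv.addLeft i) φ

theorem h0_shift [NeZero n] : h0 n (shift n X) = 1 := by
  classical
  rw [h0_def, relIndex_eq_one]
  intro φ hφ
  rw [mem_ker_Dm] at hφ
  have hconst : ∀ k : ℕ, φ (k : ZMod n) = φ 0 := by
    intro k
    induction k with
    | zero => simp
    | succ k ih =>
      have := congrFun hφ (k : ZMod n)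
      rw [shift_apply] at this
      push_cast
      rw [this, ih]
  refine ⟨Pi.single 0 (φ 0), ?_⟩
  ext i
  rw [Nm_shift_apply, Finset.sum_pi_single' , if_pos (Finset.mem_univ _), ← ZMod.natCast_zmod_val i,
    hconst]

theorem h1_shift [NeZero n] : h1 n (shift n X) = 1 := by
  rw [h1_def, relIndex_eq_one]
  intro φ hφ
  rw [AddMonoidHom.mem_ker] at hφ
  have hsum : ∑ k ∈ range n, φ (k : ZMod n) = 0 := by
    rw [sum_range_natCast, ← Nm_shift_apply φ 0, hφ]
    rfl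
  refine ⟨fun k => ∑ j ∈ range k.val, φ (j : ZMod n), ?_⟩
  ext k
  rw [Dm_apply, Pi.sub_apply, shift_apply]
  have hk := ZMod.val_lt k
  by_cases h : k.val + 1 < n
  · have h1 : (1 : ZMod n).val = 1 := by
      have : Fact (1 < n) := ⟨by omega⟩
      exact ZMod.val_one n
    have hv : (k + 1).val = k.val + 1 := by
      rw [ZMod.val_add_of_lt (by rw [h1]; exact h), h1]
    rw [hv, Finset.sum_range_succ, ZMod.natCast_zmod_val]
    abel
  · have hn : k.val + 1 = n := by omega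
    have hk1 : k + 1 = 0 := by
      rw [← ZMod.natCast_zmod_val k]
      have : ((k.val + 1 : ℕ) : ZMod n) = 0 := by rw [hn]; simp
      push_cast at this
      exact this
    rw [hk1, ZMod.val_zero, Finset.sum_range_zero]
    have hsum' : ∑ j ∈ range (k.val + 1), φ (j : ZMod n) = 0 := by
      rw [hn]; exact hsum
    rw [Finset.sum_range_succ, ZMod.natCast_zmod_val] at hsum'
    rw [zero_sub, neg_eq_iff_add_eq_zero]
    exact hsum'

/-- Any module isomorphic to an induced one has trivial `Ĥ⁰`. -/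
theorem h0_of_induced [NeZero n] (e : A ≃+ (ZMod n → X)) {σ : A →+ A}
    (h : ∀ a i, e (σ a) i = e a (i + 1)) : h0 n σ = 1 := by
  rw [← h0_congr e (τ := shift n X) (fun a => by ext i; rw [shift_apply, h]) n, h0_shift]

/-- Any module isomorphic to an induced one has trivial `H¹`. -/
theorem h1_of_induced [NeZero n] (e : A ≃+ (ZMod n → X)) {σ : A →+ A}
    (h : ∀ a i, e (σ a) i = e a (i + 1)) : h1 n σ = 1 := by
  rw [← h1_congr e (τ := shift n X) (fun a => by ext i; rw [shift_apply, h]) n, h1_shift]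

end induced

end Fermat.Agent.CFT.HQ
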