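import Fermat.Agent.CFT.HerbrandCyclic

set_option autoImplicit false

/-!
# CFT / LOC-HQ : multiplicative wrappers for the cyclic Herbrand quotient

`U` a commutative group, `σ : U →* U` with `σ^[n] = id`.
`mD σ x = σ x / x`, `mN n σ x = ∏_{i<n} σ^i x`,
`mh0 n σ = [U^σ : N U]`, `mh1 n σ = [ker N : {σ x / x}]`.
Everything is transported from the additive theory through `Additive U`.
-/

namespace Fermat.Agent.CFT.HQ

open Finset

variable {U : Type*} [CommGroup U]

/-- `x ↦ σ x / x`. -/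
def mD (σ : U →* U) : U →* U := σ / MonoidHom.id U

/-- the norm `x ↦ ∏_{i<n} σ^i x`. -/
def mN (n : ℕ) (σ : U →* U) : U →* U where
  toFun x := ∏ i ∈ range n, σ^[i] x
  map_one' := by simp [iterate_map_one]
  map_mul' x y := by simp [iterate_map_mul, Finset.prod_mul_distrib]

@[simp] lemma mD_apply (σ : U →* U) (x : U) : mD σ x = σ x / x := rfl

lemma mN_apply (n : ℕ) (σ : U →* U) (x : U) : mN n σ x = ∏ i ∈ range n, σ^[i] x := rfl

/-- `[U^σ : N U]`. -/
noncomputable def mh0 (n : ℕ) (σ : U →* U) : ℕ := (mN n σ).range.relIndex (mD σ).ker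

/-- `[ker N : {σ x / x}]`. -/
noncomputable def mh1 (n : ℕ) (σ : U →* U) : ℕ := (mD σ).range.relIndex (mN n σ).ker

lemma mh0_def (n : ℕ) (σ : U →* U) : mh0 n σ = (mN n σ).range.relIndex (mD σ).ker := rfl
lemma mh1_def (n : ℕ) (σ : U →* U) : mh1 n σ = (mD σ).range.relIndex (mN n σ).ker := rfl

lemma mem_ker_mD {σ : U →* U} {x : U} : x ∈ (mD σ).ker ↔ σ x = x := by
  rw [MonoidHom.mem_ker, mD_apply, div_eq_one]

lemma toAdditive_iterate (σ : U →* U) (i : ℕ) (x : Additive U) :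
    (MonoidHom.toAdditive σ)^[i] x = Additive.ofMul (σ^[i] x.toMul) := by
  induction i generalizing x with
  | zero => rfl
  | succ k ih =>
    rw [Function.iterate_succ_apply, ih, Function.iterate_succ_apply]
    rfl

lemma toAdditive_mD (σ : U →* U) : MonoidHom.toAdditive (mD σ) = Dm (MonoidHom.toAdditive σ) := rfl

lemma toAdditive_mN (n : ℕ) (σ : U →* U) :
    MonoidHom.toAdditive (mN n σ) = Nm n (MonoidHom.toAdditive σ) := by
  refine AddMonoidHom.ext fun x => ?_
  rw [Nm_apply]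
  simp only [toAdditive_iterate]
  rw [← ofMul_prod]
  rfl

lemma toAddSubgroup_range (f : U →* U) :
    Subgroup.toAddSubgroup f.range = (MonoidHom.toAdditive f).range := rfl

lemma toAddSubgroup_ker (f : U →* U) :
    Subgroup.toAddSubgroup f.ker = (MonoidHom.toAdditive f).ker := rfl

lemma relIndex_toAdd (H K : Subgroup U) :
    (Subgroup.toAddSubgroup H).relIndex (Subgroup.toAddSubgroup K) = H.relIndex K := rfl

/-- bridge to the additive theory. -/
theorem mh0_eq (n : ℕ) (σ : U →* U) : mh0 n σ = h0 n (MonoidHom.toAdditive σ) := by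
  rw [mh0_def, h0_def, ← toAdditive_mN, ← toAdditive_mD, ← toAddSubgroup_range,
    ← toAddSubgroup_ker, relIndex_toAdd]

/-- bridge to the additive theory. -/
theorem mh1_eq (n : ℕ) (σ : U →* U) : mh1 n σ = h1 n (MonoidHom.toAdditive σ) := by
  rw [mh1_def, h1_def, ← toAdditive_mN, ← toAdditive_mD, ← toAddSubgroup_range,
    ← toAddSubgroup_ker, relIndex_toAdd]

lemma toAdditive_iterate_eq {n : ℕ} {σ : U →* U} (hσ : ∀ x, σ^[n] x = x) (x : Additive U) :
    (MonoidHom.toAdditive σ)^[n] x = x := by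
  rw [toAdditive_iterate, hσ]
  rfl

lemma mD_mN {n : ℕ} {σ : U →* U} (hσ : ∀ x, σ^[n] x = x) (x : U) : mD σ (mN n σ x) = 1 := by
  have := Dm_Nm (toAdditive_iterate_eq hσ) (Additive.ofMul x)
  rw [← toAdditive_mN, ← toAdditive_mD] at this
  exact this

lemma mN_mD {n : ℕ} {σ : U →* U} (hσ : ∀ x, σ^[n] x = x) (x : U) : mN n σ (mD σ x) = 1 := by
  have := Nm_Dm (toAdditive_iterate_eq hσ) (Additive.ofMul x)
  rw [← toAdditive_mN, ← toAdditive_mD] at this
  exact this

/-! ### short exact sequences -/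

section ses

variable {V W : Type*} [CommGroup V] [CommGroup W]

/-- A short exact sequence `1 → V → U → W → 1` of commutative groups with an endomorphism. -/
structure IsMulCycSES (ι : V →* U) (π : U →* W) (σU : U →* U) (σV : V →* V)
    (σW : W →* W) : Prop where
  inj : Function.Injective ι
  surj : Function.Surjective π
  exact : ι.range = π.ker
  σι : ∀ b, σU (ι b) = ι (σV b)
  σπ : ∀ a, σW (π a) = π (σU a)

variable {ι : V →* U} {π : U →* W} {σU : U →* U} {σV : V →* V} {σW : W →* W}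

lemma IsMulCycSES.toAdd (h : IsMulCycSES ι π σU σV σW) :
    IsCycSES (MonoidHom.toAdditive ι) (MonoidHom.toAdditive π) (MonoidHom.toAdditive σU)
      (MonoidHom.toAdditive σV) (MonoidHom.toAdditive σW) where
  inj := h.inj
  surj := h.surj
  exact := congrArg Subgroup.toAddSubgroup h.exact
  σι := h.σι
  σπ := h.σπ

/-- **Multiplicativity of the Herbrand quotient**, cross-multiplied. -/
theorem IsMulCycSES.h_mul (h : IsMulCycSES ι π σU σV σW) {n : ℕ} (hσ : ∀ x, σU^[n] x = x) :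
    mh0 n σU * mh1 n σV * mh1 n σW = mh1 n σU * mh0 n σV * mh0 n σW := by
  simp only [mh0_eq, mh1_eq]
  exact h.toAdd.h_mul (toAdditive_iterate_eq hσ)

theorem IsMulCycSES.h0_ne_zero_mid (h : IsMulCycSES ι π σU σV σW) {n : ℕ}
    (hσ : ∀ x, σU^[n] x = x) (hB : mh0 n σV ≠ 0) (hC : mh0 n σW ≠ 0) : mh0 n σU ≠ 0 := by
  simp only [mh0_eq] at *
  exact h.toAdd.h0_ne_zero_mid (toAdditive_iterate_eq hσ) hB hC

theorem IsMulCycSES.h1_ne_zero_mid (h : IsMulCycSES ι π σU σV σW) {n : ℕ}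
    (hσ : ∀ x, σU^[n] x = x) (hB : mh1 n σV ≠ 0) (hC : mh1 n σW ≠ 0) : mh1 n σU ≠ 0 := by
  simp only [mh1_eq] at *
  exact h.toAdd.h1_ne_zero_mid (toAdditive_iterate_eq hσ) hB hC

theorem IsMulCycSES.h0_ne_zero_left (h : IsMulCycSES ι π σU σV σW) {n : ℕ}
    (hσ : ∀ x, σU^[n] x = x) (hA : mh0 n σU ≠ 0) (hC : mh1 n σW ≠ 0) : mh0 n σV ≠ 0 := by
  simp only [mh0_eq, mh1_eq] at *
  exact h.toAdd.h0_ne_zero_left (toAdditive_iterate_eq hσ) hA hC

theorem IsMulCycSES.h1_ne_zero_left (h : IsMulCycSES ι π σU σV σW) {n : ℕ}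
    (hσ : ∀ x, σU^[n] x = x) (hA : mh1 n σU ≠ 0) (hC : mh0 n σW ≠ 0) : mh1 n σV ≠ 0 := by
  simp only [mh0_eq, mh1_eq] at *
  exact h.toAdd.h1_ne_zero_left (toAdditive_iterate_eq hσ) hA hC

theorem IsMulCycSES.h0_ne_zero_right (h : IsMulCycSES ι π σU σV σW) {n : ℕ}
    (hσ : ∀ x, σU^[n] x = x) (hA : mh0 n σU ≠ 0) (hB : mh1 n σV ≠ 0) : mh0 n σW ≠ 0 := by
  simp only [mh0_eq, mh1_eq] at *
  exact h.toAdd.h0_ne_zero_right (toAdditive_iterate_eq hσ) hA hB

theorem IsMulCycSES.h1_ne_zero_right (h : IsMulCycSES ι π σU σV σW) {n : ℕ}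
    (hσ : ∀ x, σU^[n] x = x) (hA : mh1 n σU ≠ 0) (hB : mh0 n σV ≠ 0) : mh1 n σW ≠ 0 := by
  simp only [mh0_eq, mh1_eq] at *
  exact h.toAdd.h1_ne_zero_right (toAdditive_iterate_eq hσ) hA hB

/-- `h(U) = h(V)` if `U / V` is finite. -/
theorem IsMulCycSES.h_mul_of_finite_right [Finite W] (h : IsMulCycSES ι π σU σV σW) {n : ℕ}
    (hσ : ∀ x, σU^[n] x = x) : mh0 n σU * mh1 n σV = mh1 n σU * mh0 n σV := by
  simp only [mh0_eq, mh1_eq]
  exact h.toAdd.h_mul_of_finite_right (toAdditive_iterate_eq hσ)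

/-- `h(U) = h(W)` if `V` is finite. -/
theorem IsMulCycSES.h_mul_of_finite_left [Finite V] (h : IsMulCycSES ι π σU σV σW) {n : ℕ}
    (hσ : ∀ x, σU^[n] x = x) : mh0 n σU * mh1 n σW = mh1 n σU * mh0 n σW := by
  simp only [mh0_eq, mh1_eq]
  exact h.toAdd.h_mul_of_finite_left (toAdditive_iterate_eq hσ)

end ses

/-! ### a `σ`-stable subgroup -/

section subgroup

/-- restriction of `σ` to a stable subgroup. -/
def resSub (σ : U →* U) (V : Subgroup U) (hV : ∀ x ∈ V, σ x ∈ V) : V →* V :=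
  (σ.comp V.subtype).codRestrict V fun x => hV x x.2

@[simp] lemma resSub_coe (σ : U →* U) (V : Subgroup U) (hV : ∀ x ∈ V, σ x ∈ V) (x : V) :
    (resSub σ V hV x : U) = σ x := rfl

/-- the endomorphism induced on the quotient by a stable subgroup. -/
def quotSub (σ : U →* U) (V : Subgroup U) (hV : ∀ x ∈ V, σ x ∈ V) : U ⧸ V →* U ⧸ V :=
  QuotientGroup.map V V σ fun x hx => hV x hx

lemma isMulCycSES_sub (σ : U →* U) (V : Subgroup U) (hV : ∀ x ∈ V, σ x ∈ V) :
    IsMulCycSES V.subtype (QuotientGroup.mk' V) σ (resSub σ V hV) (quotSub σ V hV) where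
  inj := V.subtype_injective
  surj := QuotientGroup.mk'_surjective V
  exact := by rw [Subgroup.range_subtype, QuotientGroup.ker_mk']
  σι _ := rfl
  σπ _ := rfl

/-- A `σ`-stable subgroup of finite index has the same Herbrand quotient. -/
theorem h_mul_of_finiteIndex (σ : U →* U) (V : Subgroup U) (hV : ∀ x ∈ V, σ x ∈ V)
    [V.FiniteIndex] {n : ℕ} (hσ : ∀ x, σ^[n] x = x) :
    mh0 n σ * mh1 n (resSub σ V hV) = mh1 n σ * mh0 n (resSub σ V hV) :=
  (isMulCycSES_sub σ V hV).h_mul_of_finite_right hσ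

end subgroup

/-! ### finite groups, isomorphisms, a valuation sequence -/

theorem mh0_eq_mh1_of_finite [Finite U] {n : ℕ} {σ : U →* U} (hσ : ∀ x, σ^[n] x = x) :
    mh0 n σ = mh1 n σ := by
  rw [mh0_eq, mh1_eq]
  exact h0_eq_h1_of_finite (toAdditive_iterate_eq hσ)

theorem mh0_ne_zero_of_finite [Finite U] (n : ℕ) (σ : U →* U) : mh0 n σ ≠ 0 := by
  rw [mh0_eq]; exact h0_ne_zero_of_finite _ _

theorem mh1_ne_zero_of_finite [Finite U] (n : ℕ) (σ : U →* U) : mh1 n σ ≠ 0 := by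
  rw [mh1_eq]; exact h1_ne_zero_of_finite _ _

section iso

variable {V : Type*} [CommGroup V]

theorem mh0_congr (e : U ≃* V) {σ : U →* U} {τ : V →* V}
    (h : ∀ a, τ (e a) = e (σ a)) (n : ℕ) : mh0 n τ = mh0 n σ := by
  rw [mh0_eq, mh0_eq]
  exact h0_congr (MulEquiv.toAdditive e) (fun a => h a.toMul) n

theorem mh1_congr (e : U ≃* V) {σ : U →* U} {τ : V →* V}
    (h : ∀ a, τ (e a) = e (σ a)) (n : ℕ) : mh1 n τ = mh1 n σ := by
  rw [mh1_eq, mh1_eq]
  exact h1_congr (MulEquiv.toAdditive e) (fun a => h a.toMul) n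

/-- comparison with an additive module. -/
theorem mh0_congr_add {A : Type*} [AddCommGroup A] (e : Additive U ≃+ A) {σ : U →* U}
    {τ : A →+ A} (h : ∀ a : U, τ (e (Additive.ofMul a)) = e (Additive.ofMul (σ a))) (n : ℕ) :
    h0 n τ = mh0 n σ := by
  rw [mh0_eq]
  exact h0_congr e (fun a => h a.toMul) n

/-- comparison with an additive module. -/
theorem mh1_congr_add {A : Type*} [AddCommGroup A] (e : Additive U ≃+ A) {σ : U →* U}
    {τ : A →+ A} (h : ∀ a : U, τ (e (Additive.ofMul a)) = e (Additive.ofMul (σ a))) (n : ℕ) :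
    h1 n τ = mh1 n σ := by
  rw [mh1_eq]
  exact h1_congr e (fun a => h a.toMul) n

end iso

section val

/-- **The valuation sequence** `1 → V → U → ℤ → 0` (`v` a surjective `σ`-invariant
"valuation", `V = ker v`): `h(U) = n · h(V)`, cross-multiplied. -/
theorem h_mul_of_val {n : ℕ} (hn : n ≠ 0) (σ : U →* U) (hσ : ∀ x, σ^[n] x = x)
    (v : U →* Multiplicative ℤ) (hv : Function.Surjective v) (hvσ : ∀ x, v (σ x) = v x) :
    mh0 n σ * mh1 n (resSub σ v.ker (fun x hx => by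
        rw [MonoidHom.mem_ker] at hx ⊢; rw [hvσ, hx])) =
      mh1 n σ * mh0 n (resSub σ v.ker (fun x hx => by
        rw [MonoidHom.mem_ker] at hx ⊢; rw [hvσ, hx])) * n := by
  have hV : ∀ x ∈ v.ker, σ x ∈ v.ker := fun x hx => by
    rw [MonoidHom.mem_ker] at hx ⊢; rw [hvσ, hx]
  have hses : IsCycSES (MonoidHom.toAdditive v.ker.subtype)
      (MonoidHom.toAdditiveLeft v) (MonoidHom.toAdditive σ)
      (MonoidHom.toAdditive (resSub σ v.ker hV)) (AddMonoidHom.id ℤ) :=
    { inj := v.ker.subtype_injective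
      surj := fun z => by
        obtain ⟨u, hu⟩ := hv (Multiplicative.ofAdd z)
        exact ⟨Additive.ofMul u, congrArg Multiplicative.toAdd hu⟩
      exact := by
        ext x
        constructor
        · rintro ⟨y, rfl⟩
          exact congrArg Multiplicative.toAdd y.toMul.2
        · intro hx
          exact ⟨Additive.ofMul ⟨x.toMul, congrArg Multiplicative.ofAdd hx⟩, rfl⟩
      σι := fun _ => rfl
      σπ := fun a => (congrArg Multiplicative.toAdd (hvσ a.toMul)).symm }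
  have := hses.h_mul (toAdditive_iterate_eq hσ)
  rw [h0_int, h1_int hn, mul_one] at this
  simp only [mh0_eq, mh1_eq]
  exact this

end val

end Fermat.Agent.CFT.HQ
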